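import Fermat.Agent.S15.T.Defs

/-!
# S15 / T / End / Van : a place where `h` takes the value `a` lies in `Disc0` (`|a|_A < 1`) resp. `DiscInf` (`|a|_A > 1`).
TASK S15/T-End-Van.
-/

set_option autoImplicit false

open AlgebraicCurve ModularCurve

namespace Fermat.Agent.S15.T

open Fermat.Agent.ES Fermat.Agent.S37 Fermat.Agent.S37.Red

noncomputable section

variable {p : ℕ} [NeZero p]

omit [NeZero p] in
/-- `Van x (h - a)` gives `Reg x h`. -/
theorem Van_reg_of_van_sub {x : Place Qb (FF p)} {f : FF p} {a : Qb}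
    (hx : Van x (f - algebraMap Qb (FF p) a)) : Reg x f := by
  have h := Reg.add x (Van.reg x hx) (reg_algebraMap x a)
  rwa [sub_add_cancel] at h

/-- `Van x (h - a)` gives `Reg x h` (`h = (h - a) + a`, `Van.reg`, `reg_algebraMap`) and `val x h = a` (uniqueness of the value: see the lemmas
after `val` in `S37/Red/Val.lean`, e.g. `val_eq_of_van`); `a ∈ A.nonunits ↔ A.valuation a < 1` (`ValuationSubring.valuation_lt_one_iff` /
`ValuationSubring.mem_nonunits_iff`). -/
theorem mem_Disc0_of_van (c : Cusp p) {A : ValuationSubring Qb} {x : Place Qb (FF p)} {a : Qb}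
    (hx : Van x (c.h - algebraMap Qb (FF p) a)) (ha : A.valuation a < 1) : x ∈ Disc0 c A := by
  refine ⟨Van_reg_of_van_sub hx, ?_⟩
  rw [val_eq_of_van x hx]
  exact (ValuationSubring.mem_nonunits_iff A).mpr ha

/-- `a ≠ 0` as `|a| > 1`; `h⁻¹ - a⁻¹ = -(h - a) h⁻¹ a⁻¹` and `h⁻¹` is regular at `x` since `h` does not vanish at `x` (`reg_inv_of_not_van`):
so `Van x (h⁻¹ - a⁻¹)`, `val x h⁻¹ = a⁻¹`, `|a⁻¹| < 1`. -/
theorem mem_DiscInf_of_van (c : Cusp p) {A : ValuationSubring Qb} {x : Place Qb (FF p)} {a : Qb}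
    (hx : Van x (c.h - algebraMap Qb (FF p) a)) (ha : 1 < A.valuation a) : x ∈ DiscInf c A := by
  have ha0 : a ≠ 0 := by
    rintro rfl
    rw [map_zero] at ha
    exact not_lt_zero ha
  have hreg : Reg x c.h := Van_reg_of_van_sub hx
  have hval : val x c.h = a := val_eq_of_van x hx
  have hnv : ¬ Van x c.h := fun h => ha0 (by rw [← hval, val_eq_zero_of_van x h])
  refine ⟨reg_inv_of_not_van x hnv, ?_⟩
  rw [val_inv x hreg, hval]
  refine (ValuationSubring.mem_nonunits_iff A).mpr ?_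
  rw [map_inv₀]
  exact (inv_lt_one₀ (lt_trans zero_lt_one ha)).mpr ha

end

end Fermat.Agent.S15.T
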