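import Mathlib

/-!
# S15 / T / End / Alg : two lemmas on abelian groups (Mathlib only).  TASK S15/T-End-Alg.
-/

set_option autoImplicit false

namespace Fermat.Agent.S15.T

/-- A torsion element of a subgroup without `e`-torsion is killed by an integer prime to `e`.
Proof: write `m = e ^ k * a`, `e ∤ a` (`Nat.exists_eq_pow_mul_and_not_dvd`); `a • z ∈ K` is killed by `e ^ k`;
induction on `k` with `htf` applied to `e ^ k • (a • z) ∈ K`. -/
theorem exists_smul_eq_zero {J : Type*} [AddCommGroup J] (K : AddSubgroup J) {e : ℕ} (he : e.Prime)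
    (htf : ∀ z ∈ K, e • z = 0 → z = 0) {z : J} (hz : z ∈ K) {m : ℕ} (hm : 0 < m) (hmz : m • z = 0) :
    ∃ a : ℕ, ¬ e ∣ a ∧ a • z = 0 := by
  obtain ⟨k, a, ha, rfl⟩ := Nat.exists_eq_pow_mul_and_not_dvd hm.ne' e he.ne_one
  refine ⟨a, ha, ?_⟩
  have key : ∀ k : ℕ, ∀ w ∈ K, e ^ k • w = 0 → w = 0 := by
    intro k
    induction k with
    | zero => intro w _ hw; simpa using hw
    | succ k ih =>
      intro w hwK hw
      apply ih w hwK
      apply htf _ (K.nsmul_mem hwK _)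
      rw [smul_smul, ← pow_succ']
      exact hw
  apply key k _ (K.nsmul_mem hz a)
  rw [smul_smul]
  exact hmz

/-- If `e` divides every annihilator of the torsion element `z`, and `n` acts as the identity on the multiples of `z`
killed by `e`, then `n ≡ 1 mod e`.
Proof: `d := addOrderOf z > 0`, `e ∣ d` (`hz d`), `d = e * k`; `e • (k • z) = 0`, so `(n - 1) • (k • z) = 0`, i.e.
`((n - 1) * k) • z = 0`, so `(d : ℤ) = e * k ∣ (n - 1) * k` (`addOrderOf_dvd_iff_zsmul_eq_zero`), and `k ≠ 0`. -/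
theorem dvd_sub_one {J : Type*} [AddCommGroup J] {e : ℕ} (he : e.Prime) {z : J} {N : ℕ} (hN : 0 < N)
    (hNz : N • z = 0) (hz : ∀ m : ℤ, m • z = 0 → (e : ℤ) ∣ m) {n : ℤ}
    (h : ∀ k : ℕ, e • (k • z) = 0 → n • (k • z) = k • z) : (e : ℤ) ∣ n - 1 := by
  have hd0 : 0 < addOrderOf z := addOrderOf_pos_iff.2
    (isOfFinAddOrder_iff_nsmul_eq_zero.2 ⟨N, hN, hNz⟩)
  have hed : (e : ℤ) ∣ (addOrderOf z : ℤ) := hz _ (by
    rw [natCast_zsmul]; exact addOrderOf_nsmul_eq_zero z)
  obtain ⟨k, hk⟩ := Int.natCast_dvd_natCast.1 hed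
  have hk0 : k ≠ 0 := by
    rintro rfl
    rw [mul_zero] at hk
    omega
  have h1 : e • (k • z) = 0 := by
    rw [smul_smul, ← hk]
    exact addOrderOf_nsmul_eq_zero z
  have h2 := h k h1
  have h3 : ((n - 1) * (k : ℤ)) • z = 0 := by
    rw [mul_smul, natCast_zsmul, sub_smul, one_smul, h2, sub_self]
  have h4 := addOrderOf_dvd_iff_zsmul_eq_zero.2 h3
  rw [hk] at h4
  push_cast at h4
  exact Int.dvd_of_mul_dvd_mul_right (by exact_mod_cast hk0) h4

end Fermat.Agent.S15.T
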