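import Fermat.Agent.S15.T.Defs

/-!
# S15 / T / End / Cusp : the two cusps lie in their discs; `(p - 1) c0 = 0`.  TASK S15/T-End-Cusp.
-/

set_option autoImplicit false

open AlgebraicCurve ModularCurve

namespace Fermat.Agent.S15.T

open Fermat.Agent.ES Fermat.Agent.S37 Fermat.Agent.S37.Red

noncomputable section

variable {p : ℕ} [NeZero p]

/-- `ord_{pZero} h = p - 1 > 0`: `Van`, so `Reg` and `val = 0` (`S37.Red.van_of_ord_pos`, `val_eq_zero_of_van`), and `0 ∈ A.nonunits`
(`S37.Red.Eval_zero_mem_nonunits`). -/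
theorem pZero_mem_Disc0 (c : Cusp p) (hp : 1 < p) (A : ValuationSubring Qb) : c.pZero ∈ Disc0 c A := by
  have hpos : 0 < c.pZero.ord c.h := by
    rw [c.pZero_ord_h]
    have : (1 : ℤ) < p := by exact_mod_cast hp
    omega
  have hv := van_of_ord_pos c.pZero hpos
  refine ⟨Van.reg _ hv, ?_⟩
  rw [val_eq_zero_of_van c.pZero hv]
  exact Eval_zero_mem_nonunits

/-- the order of `coeffMap` of an injective ring hom. -/
theorem Cusp_order_coeffMap {R S : Type*} [CommRing R] [CommRing S] (f : R →+* S)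
    (hf : Function.Injective f) (x : LaurentSeries R) : (coeffMap f x).order = x.order := by
  by_cases hx : x = 0
  · rw [hx, map_zero, HahnSeries.order_zero, HahnSeries.order_zero]
  have hx' : coeffMap f x ≠ 0 := by
    intro h
    apply hx
    apply HahnSeries.coeff_order_eq_zero.mp
    have h1 := congrArg (fun s => s.coeff x.order) h
    simp only [coeffMap_coeff, HahnSeries.coeff_zero] at h1
    exact hf (by rw [h1, map_zero])
  apply le_antisymm
  · apply HahnSeries.order_le_of_coeff_ne_zero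
    rw [coeffMap_coeff]
    intro h
    exact hx (HahnSeries.coeff_order_eq_zero.mp (hf (by rw [h, map_zero])))
  · apply HahnSeries.order_le_of_coeff_ne_zero
    intro h
    apply hx'
    apply HahnSeries.coeff_order_eq_zero.mp
    rw [coeffMap_coeff, h, map_zero]

theorem Cusp_h_ne_zero (c : Cusp p) : c.h ≠ 0 := by
  intro h
  have h1 := congrArg (fun s : LaurentSeries Qb => s.coeff (1 - (p : ℤ))) c.h_coe
  simp only [coeffMap_coeff, c.H_lead, h] at h1
  simp at h1

/-- `ord_{pInf} h = order of the q-expansion = 1 - p < 0` (`c.pInf_ord`, `c.h_coe`, `c.H_order`; the order of `coeffMap` of an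
injective ring hom is the same order), so `ord h⁻¹ = p - 1 > 0`. -/
theorem pInf_ord_h (c : Cusp p) : c.pInf.ord c.h = 1 - (p : ℤ) := by
  rw [c.pInf_ord c.h (Cusp_h_ne_zero c), c.h_coe, Cusp_order_coeffMap _ Int.cast_injective,
    c.H_order]

theorem pInf_mem_DiscInf (c : Cusp p) (hp : 1 < p) (A : ValuationSubring Qb) : c.pInf ∈ DiscInf c A := by
  have hpos : 0 < c.pInf.ord c.h⁻¹ := by
    rw [c.pInf.ord_inv, pInf_ord_h]
    have : (1 : ℤ) < p := by exact_mod_cast hp
    omega
  have hv := van_of_ord_pos c.pInf hpos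
  refine ⟨Van.reg _ hv, ?_⟩
  rw [val_eq_zero_of_van c.pInf hv]
  exact Eval_zero_mem_nonunits

theorem pZero_ne_pInf (c : Cusp p) (hp : 1 < p) : c.pZero ≠ c.pInf := by
  intro h
  have h1 := c.pZero_ord_h
  rw [h, pInf_ord_h] at h1
  have : (1 : ℤ) < p := by exact_mod_cast hp
  omega

/-- `(p - 1) c0 = 0`: `(p - 1) • dz pZero pInf` is the divisor of `h` (`c.ord_h`, `c.pZero_ord_h`, `pInf_ord_h`), hence principal:
`Pic0.mk` of it is `0` (`QuotientAddGroup.eq_zero_iff`, `Divisor.principal`, `IsPrincipal D = ∃ f ≠ 0, ∀ v, D v = v.ord f`). -/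
theorem sub_one_smul_c0 (c : Cusp p) (hp : 1 < p) : (p - 1) • c0 c = 0 := by
  classical
  have hne := pZero_ne_pInf c hp
  have h1 : (p - 1) • c0 c = Pic0.mk ((p - 1) • dz c.pZero c.pInf) := rfl
  rw [h1, Pic0.mk, QuotientAddGroup.eq_zero_iff, AddSubgroup.mem_addSubgroupOf]
  refine ⟨c.h, Cusp_h_ne_zero c, fun v => ?_⟩
  have h2 : (((p - 1) • dz c.pZero c.pInf : Divisor.degZero (K := Qb) (F := FF p)) :
      Divisor Qb (FF p)) v
      = ((p - 1 : ℕ) : ℤ) * ((Finsupp.single c.pZero (1 : ℤ) : Divisor Qb (FF p)) v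
        - (Finsupp.single c.pInf (1 : ℤ) : Divisor Qb (FF p)) v) := by
    rw [AddSubgroup.coe_nsmul, Finsupp.smul_apply, nsmul_eq_mul]
    rfl
  have hcast : ((p - 1 : ℕ) : ℤ) = (p : ℤ) - 1 := by
    rw [Nat.cast_sub hp.le, Nat.cast_one]
  rw [h2, hcast]
  by_cases hv0 : v = c.pZero
  · rw [hv0, Finsupp.single_eq_same, Finsupp.single_eq_of_ne hne, c.pZero_ord_h]
    ring
  by_cases hvi : v = c.pInf
  · rw [hvi, Finsupp.single_eq_same, Finsupp.single_eq_of_ne hne.symm, pInf_ord_h]
    ring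
  · rw [Finsupp.single_eq_of_ne hv0, Finsupp.single_eq_of_ne hvi, c.ord_h v hvi hv0]
    ring

end

end Fermat.Agent.S15.T
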