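import Fermat.Agent.S15.T.Defs

/-!
# S15 / T / End / Dz : the classes `[(x) - (y)]`.  TASK S15/T-End-Dz.
All three are unfolding (`Pic0.mk` is `QuotientAddGroup.mk`; `S37.DivA_mk_sub`, `S37.DivA_gal_smul_mk` are `rfl`-lemmas;
the Galois action on divisors: `SemilinearAut.divisor_smul_apply` / the action on `Finsupp.single`, see
`Fermat/Prelude/Def_AlgebraicCurve_BaseChangeGalois.lean`).
-/

set_option autoImplicit false

open AlgebraicCurve ModularCurve

namespace Fermat.Agent.S15.T

open Fermat.Agent.ES Fermat.Agent.S37 Fermat.Agent.S37.Red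

noncomputable section

variable {p : ℕ} [NeZero p]

theorem dz_sub (x y z : Place Qb (FF p)) :
    (Pic0.mk (dz x z) : JZero p) - Pic0.mk (dz x y) = Pic0.mk (dz y z) := by
  rw [← DivA_mk_sub]
  congr 1
  apply Subtype.ext
  show (Finsupp.single x 1 - Finsupp.single z 1 : Divisor Qb (FF p)) -
    (Finsupp.single x 1 - Finsupp.single y 1) = Finsupp.single y 1 - Finsupp.single z 1
  abel

theorem gal_mk_dz {x y : Place Qb (FF p)}
    (hx : ∀ σ : GQ, arithmeticGalois (modularFunctionFieldFull p) σ • x = x)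
    (hy : ∀ σ : GQ, arithmeticGalois (modularFunctionFieldFull p) σ • y = y) (σ : GQ) :
    σ • (Pic0.mk (dz x y) : JZero p) = Pic0.mk (dz x y) := by
  rw [DivA_gal_smul_mk]
  congr 1
  apply Subtype.ext
  show arithmeticGalois (modularFunctionFieldFull p) σ •
    (Finsupp.single x 1 - Finsupp.single y 1 : Divisor Qb (FF p)) =
      Finsupp.single x 1 - Finsupp.single y 1
  rw [smul_sub, SemilinearAut.smul_single, SemilinearAut.smul_single, hx, hy]

theorem mk_dz_mem_KDisc {S : Set (Place Qb (FF p))} {x y : Place Qb (FF p)} (hx : x ∈ S) (hy : y ∈ S) :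
    (Pic0.mk (dz x y) : JZero p) ∈ KDisc S := by
  classical
  refine ⟨dz x y, rfl, fun v hv => ?_⟩
  have hv' : (Finsupp.single x 1 - Finsupp.single y 1 : Divisor Qb (FF p)) v ≠ 0 := hv
  rw [Finsupp.sub_apply, Finsupp.single_apply, Finsupp.single_apply] at hv'
  by_cases h1 : x = v
  · exact h1 ▸ hx
  · by_cases h2 : y = v
    · exact h2 ▸ hy
    · rw [if_neg h1, if_neg h2, sub_zero] at hv'
      exact absurd rfl hv'

end

end Fermat.Agent.S15.T
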