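import Fermat.Agent.S15.T.Defs

/-!
# S15 / T / End / Hecke : `T_l c0 = (l + 1) c0`.  TASK S15/T-End-Hecke.
-/

set_option autoImplicit false

open AlgebraicCurve ModularCurve

namespace Fermat.Agent.S15.T

open Fermat.Agent.ES Fermat.Agent.S37 Fermat.Agent.S37.Red

noncomputable section

variable {p : ℕ} [NeZero p]

/-- `heckeOperatorBar` on classes is induced by `TD` (`heckeOperatorBar_apply` + `S37.heckeOperatorAlong_mk`, as in the proof of
`S37.heckeGen_smul_mk`; `Pic0.coe_degZeroCorrespondence`). -/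
theorem hecke_mk (l : Nat.Primes) (D : Divisor.degZero (K := Qb) (F := FF p)) :
    haveI : NeZero (l : ℕ) := ⟨l.2.ne_zero⟩
    ∃ E : Divisor.degZero (K := Qb) (F := FF p), heckeOperatorBar p l (Pic0.mk D) = Pic0.mk E ∧
      (E : Divisor Qb (FF p)) = TD p l (D : Divisor Qb (FF p)) := by
  have : NeZero (l : ℕ) := ⟨l.2.ne_zero⟩
  have : NeZero (p * (l : ℕ)) := ⟨Nat.mul_ne_zero (NeZero.ne p) (NeZero.ne (l : ℕ))⟩
  have := hasPrincipalDivisors_FF (p * (l : ℕ))
  exact ⟨_, (heckeOperatorBar_apply p l _).trans (heckeOperatorAlong_mk p (l : ℕ) D), rfl⟩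

/-- `T_l c0 = (l + 1) c0` (`hecke_mk`, `c.TD_pInf`, `c.TD_pZero`, `map_sub`; `Finsupp.single a (l + 1) = (l + 1) • single a 1`). -/
theorem hecke_c0 (c : Cusp p) (l : Nat.Primes) (hl : (l : ℕ) ≠ p) :
    heckeOperatorBar p l (c0 c) = ((l : ℕ) + 1) • c0 c := by
  have : NeZero (l : ℕ) := ⟨l.2.ne_zero⟩
  obtain ⟨E, hE, hED⟩ := hecke_mk l (dz c.pZero c.pInf)
  have hmk : ∀ (n : ℕ) (D : Divisor.degZero (K := Qb) (F := FF p)),
      (Pic0.mk (n • D) : JZero p) = n • (Pic0.mk D : JZero p) := fun n D =>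
    map_nsmul (QuotientAddGroup.mk' ((Divisor.principal (K := Qb) (F := FF p)).addSubgroupOf
      (Divisor.degZero (K := Qb) (F := FF p)))) n D
  rw [c0, hE, ← hmk]
  congr 1
  refine Subtype.ext ?_
  rw [hED, AddSubgroup.coe_nsmul]
  change TD p l (Finsupp.single c.pZero 1 - Finsupp.single c.pInf 1) =
    ((l : ℕ) + 1) • (Finsupp.single c.pZero 1 - Finsupp.single c.pInf 1)
  rw [map_sub, c.TD_pInf l l.2 hl, c.TD_pZero l l.2 hl, smul_sub, Finsupp.smul_single,
    Finsupp.smul_single]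
  simp

end

end Fermat.Agent.S15.T
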