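import Fermat.Agent.S15.T.End.Alg
import Fermat.Agent.S15.T.End.Dz
import Fermat.Agent.S15.T.End.Cusp
import Fermat.Agent.S15.T.End.Hecke

/-!
# S15 / T / End / Main : the end game (pure algebra on `J₀(p)`).  TASK S15/T-End-Main.

Inputs: the cusp package `c`, `SPOut c` (specialisation), `FOut p e` (Eisenstein descent) for a prime
`e` dividing the order of the cuspidal class `c0`, and a Galois fixed place `x` which lies in the disc of the
cusp `0` modulo a prime `r ≠ e` and in the disc of the cusp `∞` modulo `ℓ`.  Output: `False`.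

Proof.  `⟨S, n, hK, heig, hid, htors⟩ := hF`.  `y' = [(x) - (0)] ∈ K⁰ := KDisc (Disc0 c Ar)`, `y = [(x) - (∞)] ∈ K^∞ := KDisc (DiscInf c A)`
(`mk_dz_mem_KDisc`, `pZero_mem_Disc0`, `pInf_mem_DiscInf`), both are Galois fixed (`gal_mk_dz`) and `y - y' = c0` (`dz_sub`).
`S c0 = n • c0` (`heig`, `hecke_c0`; `l ∤ p → l ≠ p`) and `e ∣ n - 1` (`dvd_sub_one` with `N = p - 1`, `sub_one_smul_c0`; for the hypothesis `h`:
`k • c0` is an eigenvector too, so `hid` gives `S (k • c0) = k • c0` and `heig` gives `S (k • c0) = n • (k • c0)`).  So `e ∤ n`.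
`S y'` is torsion (`htors`) and lies in `K⁰` (`hK` + `hSP.hecke_zero`), which has no `e`-torsion (`hSP.tf_zero`): `a • S y' = 0` with `e ∤ a`
(`exists_smul_eq_zero`).
* `ℓ ≠ e`: the same for `y`: `a' • S y = 0`, so `(a a' n) • c0 = a a' • (S y - S y') = 0`, `e ∤ a a' n`: contradiction with `hc0`.
* `ℓ = e ≥ 5`: `(a n) • c0 = a • S y - a • S y' = a • S y ∈ K^∞`, so `e ∣ a n` by `hSP.eis` (`e ∣ p - 1`: `hc0 (p - 1)`): contradiction.
-/

set_option autoImplicit false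

open AlgebraicCurve ModularCurve

namespace Fermat.Agent.S15.T

open Fermat.Agent.ES Fermat.Agent.S37 Fermat.Agent.S37.Red

noncomputable section

variable {p : ℕ} [NeZero p]

/-- **The end game.** -/
theorem endGame (hp : p.Prime) (c : Cusp p) (hSP : SPOut c) {e : ℕ} (he : e.Prime) (hep : e ≠ p)
    (hF : FOut p e) (hc0 : ∀ m : ℤ, m • c0 c = 0 → (e : ℤ) ∣ m)
    (x : Place Qb (FF p)) (hx : ∀ σ : GQ, arithmeticGalois (modularFunctionFieldFull p) σ • x = x)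
    {r : ℕ} (hr : r.Prime) (hrp : r ≠ p) (hre : e ≠ r) {Ar : ValuationSubring Qb}
    (hAr : Ar.LiesOverPrime r) (hx0 : x ∈ Disc0 c Ar)
    {ℓ : ℕ} (hℓ : ℓ.Prime) (hℓp : ℓ ≠ p) (hℓ5 : ℓ = e → 5 ≤ ℓ) {A : ValuationSubring Qb}
    (hA : A.LiesOverPrime ℓ) (hxI : x ∈ DiscInf c A) : False := by
  obtain ⟨S, n, hK, heig, hid, htors⟩ := hF
  have hp1 : 1 < p := hp.one_lt
  have hlp : ∀ l : Nat.Primes, ¬ (l : ℕ) ∣ p → (l : ℕ) ≠ p := by
    intro l hl h
    exact hl (dvd_of_eq h)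
  have heigk : ∀ (k : ℕ) (l : Nat.Primes), ¬ (l : ℕ) ∣ p →
      heckeOperatorBar p l (k • c0 c) = ((l : ℕ) + 1) • (k • c0 c) := by
    intro k l hl
    rw [map_nsmul, hecke_c0 c l (hlp l hl), smul_comm]
  have hSc0 : S (c0 c) = n • c0 c := heig _ (fun l hl => hecke_c0 c l (hlp l hl))
  have hn1 : (e : ℤ) ∣ n - 1 :=
    dvd_sub_one he (z := c0 c) (N := p - 1) (by omega) (sub_one_smul_c0 c hp1) hc0 (fun k hk => by
      rw [← heig _ (heigk k), hid _ hk (heigk k)])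
  have heP : Prime (e : ℤ) := Nat.prime_iff_prime_int.mp he
  have hen : ¬ (e : ℤ) ∣ n := by
    intro h
    have h1 : (e : ℤ) ∣ 1 := by
      have h2 := dvd_sub h hn1
      simpa using h2
    exact heP.not_dvd_one h1
  obtain ⟨y', hy'⟩ : ∃ y' : JZero p, y' = Pic0.mk (dz x c.pZero) := ⟨_, rfl⟩
  obtain ⟨y, hy⟩ : ∃ y : JZero p, y = Pic0.mk (dz x c.pInf) := ⟨_, rfl⟩
  have hy'K : y' ∈ KDisc (Disc0 c Ar) := hy' ▸ mk_dz_mem_KDisc hx0 (pZero_mem_Disc0 c hp1 Ar)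
  have hyK : y ∈ KDisc (DiscInf c A) := hy ▸ mk_dz_mem_KDisc hxI (pInf_mem_DiscInf c hp1 A)
  have hy'g : ∀ σ : GQ, σ • y' = y' := hy' ▸ gal_mk_dz hx c.gal_pZero
  have hyg : ∀ σ : GQ, σ • y = y := hy ▸ gal_mk_dz hx c.gal_pInf
  have hsub : y - y' = c0 c := by
    rw [hy, hy']
    exact dz_sub x c.pZero c.pInf
  have hSy'K : S y' ∈ KDisc (Disc0 c Ar) :=
    hK _ (fun l hl z hz => hSP.hecke_zero r Ar hr hrp hAr l (hlp l hl) z hz) y' hy'K
  have hSyK : S y ∈ KDisc (DiscInf c A) :=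
    hK _ (fun l hl z hz => hSP.hecke_inf ℓ A hℓ hℓp hA l (hlp l hl) z hz) y hyK
  obtain ⟨m', hm', hm'z⟩ := htors y' hy'g
  obtain ⟨a, hea, ha⟩ := exists_smul_eq_zero (KDisc (Disc0 c Ar)) he
    (hSP.tf_zero r e Ar hr hrp hAr he hre) hSy'K hm' hm'z
  have hS : S y - S y' = n • c0 c := by rw [← map_sub, hsub, hSc0]
  by_cases hℓe : ℓ = e
  · have h1 : ((a : ℤ) * n) • c0 c ∈ KDisc (DiscInf c A) := by
      have h2 : ((a : ℤ) * n) • c0 c = a • S y := by
        rw [mul_smul, ← hS, natCast_zsmul, nsmul_sub, ha, sub_zero]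
      rw [h2]
      exact (KDisc _).nsmul_mem hSyK a
    have hdvd : e ∣ p - 1 := by
      have h3 := hc0 ((p - 1 : ℕ) : ℤ) (by rw [natCast_zsmul]; exact sub_one_smul_c0 c hp1)
      exact_mod_cast h3
    have h4 := hSP.eis e A he (hℓe ▸ hℓ5 hℓe) hdvd (hℓe ▸ hA) _ h1
    rcases heP.dvd_or_dvd h4 with h | h
    · exact hea (by exact_mod_cast h)
    · exact hen h
  · obtain ⟨m, hm, hmz⟩ := htors y hyg
    obtain ⟨a', hea', ha'⟩ := exists_smul_eq_zero (KDisc (DiscInf c A)) he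
      (hSP.tf_inf ℓ e A hℓ hℓp hA he (Ne.symm hℓe)) hSyK hm hmz
    have h1 : ((a : ℤ) * (a' : ℤ) * n) • c0 c = 0 := by
      rw [mul_smul, ← hS, zsmul_sub, mul_smul, natCast_zsmul (S y) a', ha', smul_zero,
        mul_comm, mul_smul, natCast_zsmul (S y') a, ha, smul_zero, sub_zero]
    rcases heP.dvd_or_dvd (hc0 _ h1) with h | h
    · rcases heP.dvd_or_dvd h with h | h
      · exact hea (by exact_mod_cast h)
      · exact hea' (by exact_mod_cast h)
    · exact hen h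

end

end Fermat.Agent.S15.T
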